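import Mathlib

/-!
# Unipotent elements and stable lines
-/

set_option autoImplicit false
set_option maxHeartbeats 400000

namespace Fermat.Agent.TWL4

open Matrix

variable {k : Type*} [Field k]

/-- stable lines from fixed vectors -/
theorem line_of_fixed {S : Set (Matrix (Fin 2) (Fin 2) k)} (hS : ∃ s ∈ S, s ≠ 1)
    {v : Fin 2 → k} (hv : v ≠ 0) (h₀ : ∀ s ∈ S, s *ᵥ v = v) {w : Fin 2 → k}
    (hw : ∀ s ∈ S, s *ᵥ w = w) : ∃ a : k, w = a • v := by
  obtain ⟨s, hsS, hs⟩ := hS
  have h1 := h₀ s hsS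
  have h2 := hw s hsS
  have hdet : v 0 * w 1 - v 1 * w 0 = 0 := by
    by_contra hne
    apply hs
    have a0 := congrFun h1 0
    have a1 := congrFun h1 1
    have b0 := congrFun h2 0
    have b1 := congrFun h2 1
    simp only [mulVec, dotProduct, Fin.sum_univ_two] at a0 a1 b0 b1
    have e00 : s 0 0 = 1 := by
      apply mul_right_cancel₀ hne
      linear_combination w 1 * a0 - v 1 * b0
    have e01 : s 0 1 = 0 := by
      apply mul_right_cancel₀ hne
      linear_combination -w 0 * a0 + v 0 * b0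
    have e10 : s 1 0 = 0 := by
      apply mul_right_cancel₀ hne
      linear_combination w 1 * a1 - v 1 * b1
    have e11 : s 1 1 = 1 := by
      apply mul_right_cancel₀ hne
      linear_combination -w 0 * a1 + v 0 * b1
    ext i j
    fin_cases i <;> fin_cases j
    · exact e00
    · exact e01
    · exact e10
    · exact e11
  by_cases h0 : v 0 = 0
  · have hv1 : v 1 ≠ 0 := by
      intro h
      apply hv
      ext i
      fin_cases i
      · exact h0
      · exact h
    refine ⟨w 1 / v 1, ?_⟩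
    ext i
    fin_cases i
    · show w 0 = w 1 / v 1 * v 0
      rw [h0, mul_zero]
      rw [h0, zero_mul, zero_sub, neg_eq_zero] at hdet
      exact (mul_eq_zero.mp hdet).resolve_left hv1
    · show w 1 = w 1 / v 1 * v 1
      rw [div_mul_cancel₀ _ hv1]
  · refine ⟨w 0 / v 0, ?_⟩
    ext i
    fin_cases i
    · show w 0 = w 0 / v 0 * v 0
      rw [div_mul_cancel₀ _ h0]
    · show w 1 = w 0 / v 0 * v 1
      field_simp
      linear_combination hdet

section CharP

variable {p : ℕ} [hp : Fact p.Prime] [CharP k p]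

/-- nilpotent matrices -/
theorem sq_eq_zero_of_nilpotent {N : Matrix (Fin 2) (Fin 2) k} (h : IsNilpotent N) :
    N * N = 0 := by
  have htr : N.trace = 0 := by
    have := Matrix.isNilpotent_trace_of_isNilpotent h
    exact this.eq_zero
  have hdet : N.det = 0 := by
    obtain ⟨n, hn⟩ := h
    have h1 : N.det ^ n = 0 := by
      rw [← Matrix.det_pow, hn]
      exact Matrix.det_zero
    by_contra hne
    exact pow_ne_zero n hne h1
  rw [Matrix.trace_fin_two] at htr
  rw [Matrix.det_fin_two] at hdet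
  ext i j
  fin_cases i <;> fin_cases j <;> simp [Matrix.mul_apply, Fin.sum_univ_two]
  · linear_combination N 0 0 * htr - hdet
  · linear_combination N 0 1 * htr
  · linear_combination N 1 0 * htr
  · linear_combination N 1 1 * htr - hdet

/-- unipotent elements -/
theorem sub_one_sq {U : Matrix (Fin 2) (Fin 2) k} {a : ℕ} (hU : U ^ p ^ a = 1) :
    (U - 1) * (U - 1) = 0 := by
  apply sq_eq_zero_of_nilpotent
  haveI : CharP (Matrix (Fin 2) (Fin 2) k) p := inferInstance
  haveI : ExpChar (Matrix (Fin 2) (Fin 2) k) p := ExpChar.prime hp.out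
  refine ⟨p ^ a, ?_⟩
  rw [sub_pow_expChar_pow_of_commute (R := Matrix (Fin 2) (Fin 2) k) p a
    (Commute.one_right U), hU, one_pow, sub_self]

theorem pow_of_sub_one_sq {U : Matrix (Fin 2) (Fin 2) k} (hU : (U - 1) * (U - 1) = 0) :
    U ^ p = 1 := by
  haveI : CharP (Matrix (Fin 2) (Fin 2) k) p := inferInstance
  haveI : ExpChar (Matrix (Fin 2) (Fin 2) k) p := ExpChar.prime hp.out
  have h1 : (U - 1) ^ p = U ^ p - 1 ^ p :=
    sub_pow_expChar_of_commute p (Commute.one_right U)
  have h2 : (U - 1) ^ p = 0 := by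
    obtain ⟨m, hm⟩ : ∃ m, p = m + 2 := ⟨p - 2, by have := hp.out.two_le; omega⟩
    rw [hm, pow_add, pow_two, hU, mul_zero]
  rw [h2, one_pow] at h1
  exact (sub_eq_zero.mp h1.symm)

omit hp [CharP k p] in
/-- polarized Cayley–Hamilton -/
theorem cayley (X Y : Matrix (Fin 2) (Fin 2) k) : X * Y + Y * X =
    X.trace • Y + Y.trace • X + ((X * Y).trace - X.trace * Y.trace) • 1 := by
  ext i j
  fin_cases i <;> fin_cases j <;>
    simp [Matrix.mul_apply, Fin.sum_univ_two, Matrix.trace_fin_two] <;> ring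

omit hp [CharP k p] in
/-- the discriminant vanishes -/
theorem disc_zero (h2 : (2 : k) ≠ 0) {N s : Matrix (Fin 2) (Fin 2) k} (hN2 : N * N = 0)
    (hN : N ≠ 0)
    (c1 : s * ((1 + N) * s * (1 - N)) = ((1 + N) * s * (1 - N)) * s)
    (c2 : s * ((1 + (2 : k) • N) * s * (1 - (2 : k) • N)) =
      ((1 + (2 : k) • N) * s * (1 - (2 : k) • N)) * s) :
    s.trace ^ 2 = 4 * s.det := by
  have htr : N.trace = 0 :=
    (Matrix.isNilpotent_trace_of_isNilpotent ⟨2, by rw [pow_two, hN2]⟩).eq_zero
  have hdet : N.det = 0 := by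
    have := congrArg Matrix.det hN2
    rw [Matrix.det_mul, Matrix.det_zero] at this
    exact mul_self_eq_zero.mp this
  rw [Matrix.trace_fin_two] at htr
  rw [Matrix.det_fin_two] at hdet
  have hd : N 1 1 = - N 0 0 := by linear_combination htr
  have hdet' : N 0 0 * N 0 0 + N 0 1 * N 1 0 = 0 := by
    rw [hd] at hdet
    linear_combination -hdet
  set τ : k := (N * s).trace with hτ
  set t : k := s.trace with ht
  set d : k := s.det with hdd
  have hτ' : τ = N 0 0 * s 0 0 + N 0 1 * s 1 0 + (N 1 0 * s 0 1 - N 0 0 * s 1 1) := by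
    rw [hτ, Matrix.trace_fin_two, Matrix.mul_apply, Matrix.mul_apply, Fin.sum_univ_two,
      Fin.sum_univ_two, hd]
    ring
  have ht' : t = s 0 0 + s 1 1 := by rw [ht, Matrix.trace_fin_two]
  have hd' : d = s 0 0 * s 1 1 - s 0 1 * s 1 0 := by rw [hdd, Matrix.det_fin_two]
  have hch : N * s + s * N = t • N + τ • 1 := by
    ext i j
    fin_cases i <;> fin_cases j <;>
      simp [Matrix.mul_apply, Fin.sum_univ_two, hτ', ht', hd] <;> ring
  have hss : s * s = t • s - d • 1 := by
    ext i j
    fin_cases i <;> fin_cases j <;>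
      simp [Matrix.mul_apply, Fin.sum_univ_two, hd', ht'] <;> ring
  have hsNs : s * N * s = τ • s + d • N := by
    ext i j
    fin_cases i <;> fin_cases j <;>
      simp [Matrix.mul_apply, Fin.sum_univ_two, hτ', hd', hd] <;> ring
  have hNsN : N * s * N = τ • N := by
    have h1 : N * s * N = (N * s + s * N) * N := by
      rw [add_mul, mul_assoc s N N, hN2, mul_zero, add_zero]
    rw [h1, hch, add_mul, smul_mul_assoc, hN2, smul_zero, zero_add, smul_mul_assoc, one_mul]
  have hE : ∀ c : k, s * ((1 + c • N) * s * (1 - c • N)) = ((1 + c • N) * s * (1 - c • N)) * s →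
      c • ((4 * d - t ^ 2) • N - (t * τ) • (1 : Matrix (Fin 2) (Fin 2) k) + (2 * τ) • s) +
        (c ^ 2 * τ) • (N * s - s * N) = 0 := by
    intro c hc
    have e1 : s * ((1 + c • N) * s * (1 - c • N)) =
        s * s + c • (s * N * s) - c • (s * s * N) - (c ^ 2) • (s * (N * s * N)) := by
      simp only [mul_add, add_mul, mul_sub, sub_mul, smul_mul_assoc, mul_smul_comm, mul_one,
        one_mul, smul_sub, smul_add, smul_smul, pow_two, mul_assoc]
      abel
    have e2 : ((1 + c • N) * s * (1 - c • N)) * s =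
        s * s + c • (N * (s * s)) - c • (s * N * s) - (c ^ 2) • ((N * s * N) * s) := by
      simp only [mul_add, add_mul, mul_sub, sub_mul, smul_mul_assoc, mul_smul_comm, mul_one,
        one_mul, smul_sub, smul_add, smul_smul, pow_two, mul_assoc]
      abel
    rw [e1, e2, hsNs, hNsN, hss, sub_mul, mul_sub, smul_mul_assoc, mul_smul_comm, smul_mul_assoc,
      mul_smul_comm, smul_mul_assoc, mul_smul_comm, one_mul, mul_one] at hc
    have h3 : N * s = t • N + τ • 1 - s * N := by rw [← hch]; abel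
    rw [h3] at hc ⊢
    rw [← sub_eq_zero] at hc
    rw [← hc]
    module
  have hE1 := hE 1 (by rw [one_smul]; exact c1)
  have hE2 := hE 2 c2
  have h3 : τ • (N * s - s * N) = 0 := by
    have h4 : (2 * τ) • (N * s - s * N) = 0 := by
      have h5 : (2 * τ) • (N * s - s * N) =
          ((2 : k) • ((4 * d - t ^ 2) • N - (t * τ) • (1 : Matrix (Fin 2) (Fin 2) k) +
            (2 * τ) • s) + ((2 : k) ^ 2 * τ) • (N * s - s * N)) -
          (2 : k) • ((1 : k) • ((4 * d - t ^ 2) • N - (t * τ) • (1 : Matrix (Fin 2) (Fin 2) k) +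
            (2 * τ) • s) + ((1 : k) ^ 2 * τ) • (N * s - s * N)) := by module
      rw [h5, hE1, hE2, smul_zero, sub_zero]
    rw [mul_smul, smul_eq_zero] at h4
    exact h4.resolve_left h2
  have hτ0 : τ = 0 := by
    by_contra hne
    have h5 : N * s = s * N := sub_eq_zero.mp ((smul_eq_zero.mp h3).resolve_left hne)
    have h6 : (2 : k) • (N * s) = t • N + τ • 1 := by
      rw [← hch, ← h5, two_smul]
    have h7 := congrArg (· * N) h6
    simp only [add_mul, smul_mul_assoc, hN2, hNsN, smul_zero, zero_add, one_mul] at h7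
    have h8 : τ • N = 0 := by
      rw [two_smul] at h7
      exact add_eq_right.mp h7
    exact hN ((smul_eq_zero.mp h8).resolve_left hne)
  rw [one_smul, hτ0, mul_zero, mul_zero, mul_zero, zero_smul, zero_smul, zero_smul, sub_zero,
    add_zero, add_zero, smul_eq_zero] at hE1
  have h9 := hE1.resolve_right hN
  linear_combination -h9

/-- elements of order prime to `p` normalized by a unipotent element and commuting with their
conjugates are scalar -/
theorem scalar_of_comm (h2 : (2 : k) ≠ 0) {N s : Matrix (Fin 2) (Fin 2) k} (hN2 : N * N = 0)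
    (hN : N ≠ 0)
    (c1 : s * ((1 + N) * s * (1 - N)) = ((1 + N) * s * (1 - N)) * s)
    (c2 : s * ((1 + (2 : k) • N) * s * (1 - (2 : k) • N)) =
      ((1 + (2 : k) • N) * s * (1 - (2 : k) • N)) * s) {n : ℕ} (hn : ¬ p ∣ n) (hs : s ^ n = 1) :
    ∃ c : k, s = c • (1 : Matrix (Fin 2) (Fin 2) k) := by
  have h3 := disc_zero h2 hN2 hN c1 c2
  set α : k := s.trace / 2 with hα
  have hα' : s.trace = 2 * α := by rw [hα, mul_div_cancel₀ _ h2]
  have h4 : (s - α • 1) * (s - α • 1) = 0 := by
    have hss : s * s = s.trace • s - s.det • 1 := by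
      ext i j
      fin_cases i <;> fin_cases j <;>
        simp [Matrix.mul_apply, Fin.sum_univ_two, Matrix.trace_fin_two, Matrix.det_fin_two] <;> ring
    have h5 : s.det = α ^ 2 := by
      have h6 : (4 : k) ≠ 0 := by
        have : (4 : k) = 2 * 2 := by norm_num
        rw [this]; exact mul_ne_zero h2 h2
      apply mul_left_cancel₀ h6
      rw [← h3, hα']; ring
    rw [sub_mul, mul_sub, mul_sub, hss, hα', h5, smul_mul_assoc, mul_smul_comm, smul_mul_assoc,
      mul_smul_comm, one_mul, mul_one, mul_one]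
    module
  haveI : CharP (Matrix (Fin 2) (Fin 2) k) p := inferInstance
  haveI : ExpChar (Matrix (Fin 2) (Fin 2) k) p := ExpChar.prime hp.out
  have h5 : s ^ p = (α ^ p) • (1 : Matrix (Fin 2) (Fin 2) k) := by
    have hc : Commute s (α • (1 : Matrix (Fin 2) (Fin 2) k)) := (Commute.one_right s).smul_right α
    have h6 : (s - α • 1) ^ p = s ^ p - (α • (1 : Matrix (Fin 2) (Fin 2) k)) ^ p :=
      sub_pow_expChar_of_commute p hc
    have h7 : (s - α • (1 : Matrix (Fin 2) (Fin 2) k)) ^ p = 0 := by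
      obtain ⟨m, hm⟩ : ∃ m, p = m + 2 := ⟨p - 2, by have := hp.out.two_le; omega⟩
      rw [hm, pow_add, pow_two, h4, mul_zero]
    rw [h7, smul_pow, one_pow] at h6
    exact (sub_eq_zero.mp h6.symm)
  have hn0 : n ≠ 0 := fun h => hn (h ▸ dvd_zero _)
  rcases Nat.lt_or_ge 1 n with h1n | h1n
  · obtain ⟨i, -, hi⟩ := Nat.exists_mul_mod_eq_one_of_coprime
      ((Nat.Prime.coprime_iff_not_dvd hp.out).mpr hn) h1n
    refine ⟨(α ^ p) ^ i, ?_⟩
    have h6 : s = s ^ (p * i) := by
      conv_rhs => rw [← Nat.mod_add_div (p * i) n, pow_add, pow_mul, hs, one_pow, mul_one, hi,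
        pow_one]
    rw [h6, pow_mul, h5, smul_pow, one_pow]
  · have h1 : n = 1 := by omega
    rw [h1, pow_one] at hs
    exact ⟨1, by rw [hs, one_smul]⟩

end CharP

end Fermat.Agent.TWL4
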