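import Fermat.Agent.TWL4.Wild
import Fermat.Agent.TWL4.Mat
import Fermat.Agent.TWH1.Dev

/-!
# The image of a decomposition group: order prime to `p` or a stable line
-/

set_option autoImplicit false
set_option maxHeartbeats 400000

namespace Fermat.Agent.TWL4

open Fermat.Agent.DefRing Fermat.Agent.GalRep Fermat.Agent.Frob Fermat.Agent.TWGal Matrix
open scoped Pointwise

local notation "Qbar" => AlgebraicClosure ℚ

attribute [local instance] Fermat.Agent.Frob.isAlgebraic_Qbar Fermat.Agent.Frob.isGalois_Qbar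

section Line

variable {p : ℕ} [hp : Fact p.Prime] {k : Type} [Field k] [Finite k] [CharP k p]
  {G : Type*} [Group G] (ρ : G →* Matrix (Fin 2) (Fin 2) k)

/-- the action on vectors -/
@[reducible] def vecAct : DistribMulAction G (Fin 2 → k) where
  smul g v := ρ g *ᵥ v
  one_smul v := by
    show ρ 1 *ᵥ v = v
    rw [map_one, one_mulVec]
  mul_smul g h v := by
    show ρ (g * h) *ᵥ v = ρ g *ᵥ (ρ h *ᵥ v)
    rw [map_mul, mulVec_mulVec]
  smul_zero g := mulVec_zero _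
  smul_add g a b := mulVec_add _ _ _

theorem exists_fixed (P : Subgroup G) (hP : ∀ g ∈ P, ∃ a : ℕ, ρ g ^ p ^ a = 1) :
    ∃ v : Fin 2 → k, v ≠ 0 ∧ ∀ g ∈ P, ρ g *ᵥ v = v := by
  letI := vecAct ρ
  refine TWH1.exists_fixed_of_pgroup (p := p) P (M := Fin 2 → k) (fun m => ?_) fun g hg => ?_
  · ext i
    show p • m i = 0
    rw [nsmul_eq_mul, CharP.cast_eq_zero, zero_mul]
  · obtain ⟨a, ha⟩ := hP g hg
    refine ⟨a, fun m => ?_⟩
    show ρ (g ^ p ^ a) *ᵥ m = m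
    rw [map_pow, ha, one_mulVec]

theorem line_of_normal (D : Subgroup G) (P : Subgroup G) (hD : ∀ g ∈ D, ∀ w ∈ P, g * w * g⁻¹ ∈ P)
    (hP : ∀ g ∈ P, ∃ a : ℕ, ρ g ^ p ^ a = 1) (hne : ∃ w ∈ P, ρ w ≠ 1) :
    ∃ v : Fin 2 → k, v ≠ 0 ∧ ∀ g ∈ D, ∃ a : k, ρ g *ᵥ v = a • v := by
  obtain ⟨v, hv, hfix⟩ := exists_fixed ρ P hP
  refine ⟨v, hv, fun g hg => ?_⟩
  refine line_of_fixed (S := ρ '' P) (by
    obtain ⟨w, hw, h⟩ := hne
    exact ⟨ρ w, ⟨w, hw, rfl⟩, h⟩) hv (by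
    rintro _ ⟨w, hw, rfl⟩
    exact hfix w hw) ?_
  rintro _ ⟨w, hw, rfl⟩
  have h1 := hfix (g⁻¹ * w * g) (by
    have := hD g⁻¹ (inv_mem hg) w hw
    rwa [inv_inv] at this)
  have h2 : w * g = g * (g⁻¹ * w * g) := by group
  rw [mulVec_mulVec, ← map_mul, h2, map_mul, ← mulVec_mulVec, h1]

/-- the scalar case -/
theorem line_of_commute (D : Subgroup G) {u : G} (hu : ρ u ^ p = 1) (hu1 : ρ u ≠ 1)
    (hcomm : ∀ g ∈ D, ρ g * ρ u = ρ u * ρ g) :
    ∃ v : Fin 2 → k, v ≠ 0 ∧ ∀ g ∈ D, ∃ a : k, ρ g *ᵥ v = a • v := by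
  have hN := sub_one_sq (p := p) (U := ρ u) (a := 1) (by rwa [pow_one])
  obtain ⟨w, hw⟩ : ∃ w : Fin 2 → k, (ρ u - 1) *ᵥ w ≠ 0 := by
    by_contra hcon
    push Not at hcon
    apply hu1
    rw [← sub_eq_zero]
    ext i j
    have h1 := congrFun (hcon (Pi.single j 1)) i
    rw [mulVec_single_one] at h1
    exact h1
  have hfix : ρ u *ᵥ ((ρ u - 1) *ᵥ w) = (ρ u - 1) *ᵥ w := by
    have h1 : (ρ u - 1) *ᵥ ((ρ u - 1) *ᵥ w) = 0 := by rw [mulVec_mulVec, hN, zero_mulVec]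
    rw [sub_mulVec (ρ u) 1 ((ρ u - 1) *ᵥ w), one_mulVec, sub_eq_zero] at h1
    exact h1
  refine ⟨(ρ u - 1) *ᵥ w, hw, fun g hg => ?_⟩
  refine line_of_fixed (S := {ρ u}) ⟨_, rfl, hu1⟩ hw (by
    rintro _ rfl
    exact hfix) ?_
  rintro _ rfl
  rw [mulVec_mulVec, ← hcomm g hg, ← mulVec_mulVec, hfix]

end Line

section Main

variable {p : ℕ} [hp : Fact p.Prime] {k : Type} [Field k] [Finite k] [CharP k p]
  (ρ : GQ →* Matrix (Fin 2) (Fin 2) k)

omit [CharP k p] in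
/-- the field cut out by the kernel -/
theorem exists_field (hlev : ∃ L : IntermediateField ℚ Qbar, FiniteDimensional ℚ L ∧
      ∀ σ : GQ, (∀ x ∈ L, σ x = x) → ρ σ = 1) :
    ∃ K : IntermediateField ℚ Qbar, (∀ g : GQ, ∀ x ∈ K, g x ∈ K) ∧
      ∀ σ : GQ, ρ σ = 1 ↔ ∀ x ∈ K, σ x = x := by
  obtain ⟨L, hL, h⟩ := hlev
  have hopen : IsOpen (ρ.ker : Set GQ) := by
    refine Subgroup.isOpen_mono (H₁ := L.fixingSubgroup) ?_ L.fixingSubgroup_isOpen
    intro σ hσ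
    rw [MonoidHom.mem_ker]
    exact h σ ((IntermediateField.mem_fixingSubgroup_iff L σ).mp hσ)
  have hclosed : IsClosed (ρ.ker : Set GQ) := Subgroup.isClosed_of_isOpen _ hopen
  let H : ClosedSubgroup GQ := ⟨ρ.ker, hclosed⟩
  have h1 : (IntermediateField.fixedField ρ.ker).fixingSubgroup = ρ.ker :=
    InfiniteGalois.fixingSubgroup_fixedField H
  refine ⟨IntermediateField.fixedField ρ.ker, fun g x hx => ?_, fun σ => ?_⟩
  · rw [IntermediateField.mem_fixedField_iff] at hx ⊢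
    intro n hn
    have h2 := hx (g⁻¹ * n * g) (by
      have := (inferInstance : ρ.ker.Normal).conj_mem n hn g⁻¹
      rwa [inv_inv] at this)
    have h3 : n * g = g * (g⁻¹ * n * g) := by group
    rw [← AlgEquiv.mul_apply, h3, AlgEquiv.mul_apply, h2]
  · rw [← MonoidHom.mem_ker, ← h1, IntermediateField.mem_fixingSubgroup_iff, h1]

omit hp [CharP k p] in
theorem exists_pow_eq_one (g : GQ) : ∃ n : ℕ, 0 < n ∧ ρ g ^ n = 1 := by
  haveI : Finite (Matrix (Fin 2) (Fin 2) k)ˣ := inferInstance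
  obtain ⟨n, hn, h⟩ := (isOfFinOrder_of_finite (Units.map (MonoidHom.id _) (toUnits g |> fun u =>
    Units.map ρ u))).exists_pow_eq_one
  refine ⟨n, hn, ?_⟩
  have := congrArg Units.val h
  simpa using this

variable {A : ValuationSubring Qbar} {q : ℕ}

/-- **dichotomy** -/
theorem dichotomy (hp2 : p ≠ 2) (hlev : ∃ L : IntermediateField ℚ Qbar, FiniteDimensional ℚ L ∧
      ∀ σ : GQ, (∀ x ∈ L, σ x = x) → ρ σ = 1) (hq : q.Prime) (hA : A.LiesOverPrime q)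
    (hun : q ≠ p → ∀ σ ∈ A.inertiaSubgroupIn ℚ, (ρ σ - 1) * (ρ σ - 1) = 0) :
    (∀ g ∈ A.decompositionSubgroup ℚ, ρ g ^ p = 1 → ρ g = 1) ∨
      ∃ v : Fin 2 → k, v ≠ 0 ∧ ∀ g ∈ A.decompositionSubgroup ℚ, ∃ a : k, ρ g *ᵥ v = a • v := by
  by_cases hex : ∀ g ∈ A.decompositionSubgroup ℚ, ρ g ^ p = 1 → ρ g = 1
  · exact Or.inl hex
  right
  push Not at hex
  obtain ⟨u, hu, hup, hu1⟩ := hex
  have hk2 : (2 : k) ≠ 0 := by
    intro h
    have h1 : ((2 : ℕ) : k) = 0 := by exact_mod_cast h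
    rw [CharP.cast_eq_zero_iff k p] at h1
    exact hp2 ((Nat.prime_dvd_prime_iff_eq hp.out Nat.prime_two).mp h1)
  -- the scalar case
  have hscal : (∀ σ ∈ A.inertiaSubgroupIn ℚ, ∃ c : k, ρ σ = c • (1 : Matrix (Fin 2) (Fin 2) k)) →
      ∃ v : Fin 2 → k, v ≠ 0 ∧ ∀ g ∈ A.decompositionSubgroup ℚ, ∃ a : k, ρ g *ᵥ v = a • v := by
    intro hI
    obtain ⟨φ, hφ⟩ := Frob.exists_isFrobeniusAt_Qbar A hq hA
    obtain ⟨L, hL, hL'⟩ := hlev
    have hgen : ∀ g ∈ A.decompositionSubgroup ℚ, ∃ (n : ℕ) (c : k), ρ g = c • ρ φ ^ n := by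
      intro g hg
      obtain ⟨n, σ, hσ, h⟩ := exists_frob_mul_inertia hq hA hφ hg L
      obtain ⟨c, hc⟩ := hI σ hσ
      refine ⟨n, c, ?_⟩
      have h1 : ρ ((φ ^ n * σ)⁻¹ * g) = 1 := by
        refine hL' _ fun x hx => ?_
        rw [AlgEquiv.mul_apply, ← h x hx]
        exact inv_smul_smul (φ ^ n * σ) x
      have h2 : g = (φ ^ n * σ) * ((φ ^ n * σ)⁻¹ * g) := by group
      rw [h2, map_mul, h1, mul_one, map_mul, map_pow, hc, mul_smul_comm, mul_one]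
    refine line_of_commute ρ _ hup hu1 fun g hg => ?_
    obtain ⟨n, c, h1⟩ := hgen g hg
    obtain ⟨m, d, h2⟩ := hgen u hu
    rw [h1, h2, smul_mul_smul_comm, smul_mul_smul_comm, ← pow_add, ← pow_add, add_comm n m,
      mul_comm c d]
  by_cases hqp : q = p
  swap
  · by_cases hI : ∃ σ ∈ A.inertiaSubgroupIn ℚ, ρ σ ≠ 1
    · exact line_of_normal ρ _ (A.inertiaSubgroupIn ℚ)
        (fun g hg w hw => conj_mem_inertia' hg hw)
        (fun g hg => ⟨1, by rw [pow_one]; exact pow_of_sub_one_sq (hun hqp g hg)⟩) hI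
    · push Not at hI
      exact hscal fun σ hσ => ⟨1, by rw [hI σ hσ, one_smul]⟩
  subst hqp
  obtain ⟨K, hK, hKρ⟩ := exists_field ρ hlev
  by_cases hW : ∃ σ ∈ wild hq hA K, ρ σ ≠ 1
  · refine line_of_normal ρ _ (wild hq hA K) (fun g hg w hw => conj_mem_wild hK hg hw)
      (fun g hg => ?_) hW
    obtain ⟨n, hn, hgn⟩ := exists_pow_eq_one ρ g
    obtain ⟨a, m, hm, rfl⟩ := Nat.exists_eq_pow_mul_and_not_dvd hn.ne' q hq.ne_one
    refine ⟨a, ?_⟩
    rw [← map_pow, hKρ]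
    refine fix_of_wild hK (pow_mem hg _) hm ?_
    rw [← hKρ, map_pow, map_pow, ← pow_mul, hgn]
  · push Not at hW
    refine hscal fun σ hσ => ?_
    have hN := sub_one_sq (p := q) (U := ρ u) (a := 1) (by rwa [pow_one])
    set N := ρ u - 1 with hNdef
    have hU : ρ u = 1 + N := by rw [hNdef]; abel
    have hUi : ρ u⁻¹ = 1 - N := by
      have h1 : ρ u⁻¹ * ρ u = 1 := by rw [← map_mul, inv_mul_cancel, map_one]
      have h2 : ρ u * (1 - N) = 1 := by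
        have h3 : (1 + N) * (1 - N) = 1 - N * N := by noncomm_ring
        rw [hU, h3, hN, sub_zero]
      calc ρ u⁻¹ = ρ u⁻¹ * (ρ u * (1 - N)) := by rw [h2, mul_one]
        _ = 1 - N := by rw [← mul_assoc, h1, one_mul]
    have hcomm : ∀ g ∈ A.decompositionSubgroup ℚ,
        ρ σ * (ρ g * ρ σ * ρ g⁻¹) = (ρ g * ρ σ * ρ g⁻¹) * ρ σ := by
      intro g hg
      have h1 := conj_mem_inertia' hg hσ
      have h2 := hW _ (comm_mem_wild (hp := hq) (hA := hA) hK hσ h1)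
      have h3 : ρ (σ * (g * σ * g⁻¹)) = ρ ((g * σ * g⁻¹) * σ) := by
        have h4 : σ * (g * σ * g⁻¹) = (σ * (g * σ * g⁻¹) * σ⁻¹ * (g * σ * g⁻¹)⁻¹) *
            ((g * σ * g⁻¹) * σ) := by group
        rw [h4, map_mul, h2, one_mul]
      rwa [map_mul, map_mul, map_mul, map_mul, map_mul, map_mul] at h3
    obtain ⟨n, hn, hgn⟩ := exists_pow_eq_one ρ σ
    obtain ⟨a, m, hm, rfl⟩ := Nat.exists_eq_pow_mul_and_not_dvd hn.ne' q hq.ne_one
    have hsm : ρ σ ^ m = 1 := by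
      have h1 : ∀ b : ℕ, (σ ^ m) ^ q ^ b ∈ wild hq hA K → σ ^ m ∈ wild hq hA K := by
        intro b
        induction b with
        | zero => intro h; rwa [pow_zero, pow_one] at h
        | succ b ih =>
          intro h
          rw [pow_succ, pow_mul] at h
          exact ih (mem_wild_of_pow (pow_mem (pow_mem hσ _) _) h)
      rw [← map_pow]
      refine hW _ (h1 a ⟨pow_mem (pow_mem hσ _) _, fun x hx hx0 => ?_⟩)
      have h2 : ρ ((σ ^ m) ^ q ^ a) = 1 := by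
        rw [map_pow, map_pow, ← pow_mul, mul_comm m, hgn]
      rw [(hKρ _).mp h2 x hx, sub_self, map_zero]
      exact zero_lt_iff.mpr ((Valuation.ne_zero_iff _).mpr hx0)
    refine scalar_of_comm (p := q) hk2 (N := N) hN (sub_ne_zero.mpr hu1) ?_ ?_ hm hsm
    · have := hcomm u hu
      rwa [hUi, hU] at this
    · have h1 := hcomm (u * u) (mul_mem hu hu)
      have e1 : ρ (u * u) = 1 + (2 : k) • N := by
        have h3 : (1 + N) * (1 + N) = 1 + (N + N) + N * N := by noncomm_ring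
        rw [map_mul, hU, h3, hN, add_zero, two_smul]
      have e2 : ρ (u * u)⁻¹ = 1 - (2 : k) • N := by
        have h3 : (1 - N) * (1 - N) = 1 - (N + N) + N * N := by noncomm_ring
        rw [_root_.mul_inv_rev, map_mul, hUi, h3, hN, add_zero, two_smul]
      rwa [e1, e2] at h1

end Main

end Fermat.Agent.TWL4
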