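import Fermat.Agent.TWL4.Main
import Fermat.Agent.CFT.GW2
import Fermat.Agent.TWPr.Mod

/-!
# The local Euler characteristic bound in the form used by the Greenberg-Wiles bound
-/

set_option autoImplicit false
set_option maxHeartbeats 400000

namespace Fermat.Agent.TWL4

open Fermat.Agent.DefRing Fermat.Agent.GalRep Fermat.Agent.Frob Fermat.Agent.TWGal Matrix
open Fermat.Agent.CFT hiding GQ
open Fermat.Agent.TWLocal Fermat.Agent.TWH1

local notation "Qbar" => AlgebraicClosure ℚ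

variable {p : ℕ} [hp : Fact p.Prime] {k : Type} [Field k] [Finite k] [CharP k p]

/-- the local Euler characteristic bound for global modules on which the Galois group acts
through a two-dimensional representation, unipotent on inertia away from `p` -/
theorem lec_of_rep (hp2 : p ≠ 2) (ρ : GQ →* Matrix (Fin 2) (Fin 2) k)
    (hlev : ∃ L : IntermediateField ℚ Qbar, FiniteDimensional ℚ L ∧
      ∀ σ : GQ, (∀ x ∈ L, σ x = x) → ρ σ = 1) (q : Nat.Primes)
    (hun : (q : ℕ) ≠ p → ∀ σ ∈ (padicPlace (q : ℕ)).inertiaSubgroupIn ℚ,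
      (ρ σ - 1) * (ρ σ - 1) = 0)
    {V : Type*} [AddCommGroup V] [DistribMulAction GQ V] [Finite V]
    (hpM : ∀ m : V, p • m = 0) (hM : ∀ g : GQ, ρ g = 1 → ∀ m : V, g • m = m) : LECz p q V := by
  haveI : Fact (q : ℕ).Prime := ⟨q.2⟩
  haveI : Finite (RL q V) := inferInstanceAs (Finite V)
  refine LECz_of ?_ ?_
  · obtain ⟨L, hL, h⟩ := hlev
    haveI := hL
    refine ⟨L.fixingSubgroup.comap (localGaloisToGlobal (q : ℕ)), isOpen_comap_lg q L,
      fun g hg v => ?_⟩
    exact hM _ (h _ ((IntermediateField.mem_fixingSubgroup_iff L _).mp hg)) v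
  · exact (lb_of_rep hp2 ρ hlev (q := (q : ℕ)) hun (M := RL q V) hpM
      (fun g hg m => hM _ hg m)).2

open Fermat.Agent.TWPr in
/-- the adjoint module -/
theorem lec_VV (hp2 : p ≠ 2) (ρ : GQ →* Matrix (Fin 2) (Fin 2) k)
    (hlev : ∃ L : IntermediateField ℚ Qbar, FiniteDimensional ℚ L ∧
      ∀ σ : GQ, (∀ x ∈ L, σ x = x) → ρ σ = 1) (q : Nat.Primes)
    (hun : (q : ℕ) ≠ p → ∀ σ ∈ (padicPlace (q : ℕ)).inertiaSubgroupIn ℚ,
      (ρ σ - 1) * (ρ σ - 1) = 0) : LECz p q (VV ρ) := by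
  refine lec_of_rep hp2 ρ hlev q hun (fun m => ?_) fun g hg m => ?_
  · refine VV.ext' ?_
    have h1 : ((p : k)) • m = 0 := by rw [CharP.cast_eq_zero, zero_smul]
    rw [← h1, Nat.cast_smul_eq_nsmul]
  · refine VV.ext' ?_
    rw [VV.mat_smul, hg]
    have h2 : ρ g⁻¹ = 1 := by
      have h3 : ρ g⁻¹ * ρ g = 1 := by rw [← map_mul, inv_mul_cancel, map_one]
      rwa [hg, mul_one] at h3
    rw [h2, one_mul, mul_one]

end Fermat.Agent.TWL4
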