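import Fermat.Agent.TWL4.Dich
import Fermat.Agent.CFT.GWDefs
import Fermat.Agent.CFT.EqF

/-!
# The lower bound for local cohomology of modules attached to two-dimensional representations
-/

set_option autoImplicit false
set_option maxHeartbeats 400000

namespace Fermat.Agent.TWL4

open Fermat.Agent.DefRing Fermat.Agent.GalRep Fermat.Agent.Frob Fermat.Agent.TWGal Matrix
open Fermat.Agent.CFT hiding GQ
open Fermat.Agent.TWLocal Fermat.Agent.TWH1
open scoped Pointwise

local notation "Qbar" => AlgebraicClosure ℚ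

universe u

/-- indices prime to `p` -/
theorem index_coprime {G : Type*} [Group G] {p : ℕ} [hp : Fact p.Prime] (P : Subgroup G)
    [P.Normal] [P.FiniteIndex] (h : ∀ g : G, g ^ p ∈ P → g ∈ P) : P.index.Coprime p := by
  rw [Nat.coprime_comm, Nat.Prime.coprime_iff_not_dvd hp.out]
  intro hdvd
  haveI : Finite (G ⧸ P) := Subgroup.finite_quotient_of_finiteIndex
  have h1 : p ∣ Nat.card (G ⧸ P) := hdvd
  obtain ⟨x, hx⟩ := exists_prime_orderOf_dvd_card' p h1
  obtain ⟨g, rfl⟩ := QuotientGroup.mk_surjective x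
  have h2 : ((g : G ⧸ P)) ^ p = 1 := by rw [← hx]; exact pow_orderOf_eq_one _
  rw [← QuotientGroup.mk_pow, QuotientGroup.eq_one_iff] at h2
  have h3 := h g h2
  rw [← QuotientGroup.eq_one_iff] at h3
  rw [h3, orderOf_one] at hx
  exact hp.out.one_lt.ne hx

variable {p : ℕ} [hp : Fact p.Prime] {k : Type} [Field k] [Finite k] [CharP k p]

omit [Finite k] in
theorem eq_one_of_pow {a : k} (h : a ^ p = 1) : a = 1 := by
  haveI : ExpChar k p := ExpChar.prime hp.out
  have h1 : (a - 1) ^ p = 0 := by rw [sub_pow_expChar, h, one_pow, sub_self]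
  exact sub_eq_zero.mp ((pow_eq_zero_iff hp.out.ne_zero).mp h1)

omit hp [Finite k] [CharP k p] in
theorem unip_of_fixed {X : Matrix (Fin 2) (Fin 2) k} {v : Fin 2 → k} (hv : v ≠ 0)
    (h : X *ᵥ v = v) (hd : X.det = 1) : (X - 1) * (X - 1) = 0 := by
  have h1 : (X - 1).det = 0 := by
    rw [← Matrix.exists_mulVec_eq_zero_iff]
    exact ⟨v, hv, by rw [sub_mulVec, one_mulVec, h, sub_self]⟩
  rw [Matrix.det_fin_two] at h1 hd
  simp only [Matrix.sub_apply, Matrix.one_apply_eq, Matrix.one_apply, Fin.isValue] at h1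
  norm_num at h1
  ext i j
  fin_cases i <;> fin_cases j <;>
    simp [Matrix.mul_apply, Fin.sum_univ_two]
  · linear_combination X 0 0 * (hd - h1) - hd
  · linear_combination -X 0 1 * (h1 - hd)
  · linear_combination -X 1 0 * (h1 - hd)
  · linear_combination X 1 1 * (hd - h1) - hd

/-- **(L4)**: the local lower bound for modules on which the local Galois group acts through a
two-dimensional representation, unipotent on inertia away from `p`. -/
theorem lb_of_rep (hp2 : p ≠ 2) (ρ : GQ →* Matrix (Fin 2) (Fin 2) k)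
    (hlev : ∃ L : IntermediateField ℚ Qbar, FiniteDimensional ℚ L ∧
      ∀ σ : GQ, (∀ x ∈ L, σ x = x) → ρ σ = 1) {q : ℕ} [hq : Fact q.Prime]
    (hun : q ≠ p → ∀ σ ∈ (padicPlace q).inertiaSubgroupIn ℚ, (ρ σ - 1) * (ρ σ - 1) = 0)
    {M : Type u} [AddCommGroup M] [DistribMulAction (LG q) M] [Finite M]
    (hpM : ∀ m : M, p • m = 0)
    (hM : ∀ g : LG q, ρ (localGaloisToGlobal q g) = 1 → ∀ m : M, g • m = m) : LB p q M := by
  let ρ' : LG q →* Matrix (Fin 2) (Fin 2) k := ρ.comp (localGaloisToGlobal q)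
  have hopen : IsOpen (ρ'.ker : Set (LG q)) := by
    obtain ⟨L, hL, h⟩ := hlev
    refine Subgroup.isOpen_mono (H₁ := L.fixingSubgroup.comap (localGaloisToGlobal q)) ?_
      (isOpen_comap_lg (q := ⟨q, hq.out⟩) (F := L))
    intro σ hσ
    rw [MonoidHom.mem_ker]
    exact h _ ((IntermediateField.mem_fixingSubgroup_iff L _).mp hσ)
  have hMker : ∀ g ∈ ρ'.ker, ∀ m : M, g • m = m := fun g hg => hM g hg
  rcases dichotomy ρ hp2 hlev hq.out (A := padicPlace q) (padicPlace_liesOver q) hun with h | h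
  · haveI := open_finiteIndex hopen
    refine card_H1_ge hpM ρ'.ker hopen (index_coprime _ fun g hg => ?_) hMker
    rw [MonoidHom.mem_ker] at hg ⊢
    refine h _ (localGaloisToGlobal_mem_decompositionSubgroup q g) ?_
    rw [← hg, map_pow]
    rfl
  · obtain ⟨v, hv, hline⟩ := h
    have hline' : ∀ g : LG q, ∃ a : k, ρ' g *ᵥ v = a • v := fun g =>
      hline _ (localGaloisToGlobal_mem_decompositionSubgroup q g)
    choose a ha using hline'
    have hinj : ∀ x y : k, x • v = y • v → x = y := fun x y h => smul_left_injective k hv h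
    let f : LG q →* k × k :=
      { toFun := fun g => (a g, (ρ' g).det)
        map_one' := by
          refine Prod.ext (hinj _ _ ?_) ?_
          · show a 1 • v = (1 : k) • v
            rw [← ha, map_one, one_mulVec, one_smul]
          · show (ρ' 1).det = 1
            rw [map_one, Matrix.det_one]
        map_mul' := fun g h => by
          refine Prod.ext (hinj _ _ ?_) ?_
          · show a (g * h) • v = (a g * a h) • v
            rw [← ha, map_mul, ← mulVec_mulVec, ha, mulVec_smul, ha, smul_smul, mul_comm]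
          · show (ρ' (g * h)).det = (ρ' g).det * (ρ' h).det
            rw [map_mul, Matrix.det_mul] }
    have hf : ∀ g, g ∈ f.ker ↔ a g = 1 ∧ (ρ' g).det = 1 := fun g => by
      rw [MonoidHom.mem_ker]
      exact Prod.ext_iff
    have hfo : IsOpen (f.ker : Set (LG q)) := by
      refine Subgroup.isOpen_mono (H₁ := ρ'.ker) (fun g hg => ?_) hopen
      rw [MonoidHom.mem_ker] at hg
      rw [hf]
      refine ⟨hinj _ _ ?_, by rw [hg, Matrix.det_one]⟩
      rw [← ha, hg, one_mulVec, one_smul]
    haveI := open_finiteIndex hfo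
    refine card_H1_ge_of_normal f.ker hfo (index_coprime _ fun g hg => ?_) hpM ρ'.ker hopen hMker
      fun g hg => ⟨1, fun m => ?_⟩
    · rw [MonoidHom.mem_ker] at hg ⊢
      rw [map_pow] at hg
      exact Prod.ext (eq_one_of_pow (congrArg Prod.fst hg)) (eq_one_of_pow (congrArg Prod.snd hg))
    · rw [hf] at hg
      refine hMker _ ?_ m
      rw [MonoidHom.mem_ker, map_pow, pow_one]
      refine pow_of_sub_one_sq (unip_of_fixed hv ?_ hg.2)
      rw [ha, hg.1, one_smul]

/-- the same for modules over the global Galois group -/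
theorem lb_of_rep' (hp2 : p ≠ 2) (ρ : GQ →* Matrix (Fin 2) (Fin 2) k)
    (hlev : ∃ L : IntermediateField ℚ Qbar, FiniteDimensional ℚ L ∧
      ∀ σ : GQ, (∀ x ∈ L, σ x = x) → ρ σ = 1) {q : ℕ} [hq : Fact q.Prime]
    (hun : q ≠ p → ∀ σ ∈ (padicPlace q).inertiaSubgroupIn ℚ, (ρ σ - 1) * (ρ σ - 1) = 0)
    {M : Type u} [AddCommGroup M] [DistribMulAction GQ M] [Finite M]
    (hpM : ∀ m : M, p • m = 0) (hM : ∀ g : GQ, ρ g = 1 → ∀ m : M, g • m = m) :
    letI := DistribMulAction.compHom M (localGaloisToGlobal q)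
    LB p q M := by
  letI := DistribMulAction.compHom M (localGaloisToGlobal q)
  exact lb_of_rep hp2 ρ hlev hun hpM fun g hg m => hM _ hg m

end Fermat.Agent.TWL4
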