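import Fermat.Agent.TWGal.Tame

/-!
# Wild inertia at a finite level
-/

set_option autoImplicit false
set_option maxHeartbeats 400000

namespace Fermat.Agent.TWL4

open Fermat.Agent.DefRing Fermat.Agent.GalRep Fermat.Agent.Frob Fermat.Agent.TWGal
open scoped Pointwise

local notation "Qbar" => AlgebraicClosure ℚ

attribute [local instance] Fermat.Agent.Frob.isAlgebraic_Qbar

variable {A : ValuationSubring Qbar} {p : ℕ}

/-- decomposition elements preserve the valuation -/
theorem val_smul (hp : p.Prime) (hA : A.LiesOverPrime p) {g : GQ}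
    (hg : g ∈ A.decompositionSubgroup ℚ) (x : Qbar) : A.valuation (g x) = A.valuation x := by
  by_cases hx : x = 0
  · rw [hx, map_zero]
  obtain ⟨e, he, f, hef⟩ := ECRed.val_alg A hp hA hx
  have hp0 : (p : Qbar) ≠ 0 := by exact_mod_cast hp.ne_zero
  have hvp : A.valuation (p : Qbar) ≠ 0 := (Valuation.ne_zero_iff _).mpr hp0
  set u : Qbar := x ^ e / (p : Qbar) ^ f with hu
  have hu1 : A.valuation u = 1 := by
    rw [hu, map_div₀, map_pow, map_zpow₀, hef, div_self (zpow_ne_zero _ hvp)]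
  have key : ∀ z : Qbar, A.valuation z ≤ 1 → A.valuation (g z) ≤ 1 := by
    intro z hz
    rw [A.valuation_le_one_iff] at hz ⊢
    have h1 : g • z ∈ g • A := (ValuationSubring.smul_mem_pointwise_smul_iff).2 hz
    rw [mem_decomp_iff.mp hg] at h1
    exact h1
  have h1 : A.valuation (g u) = 1 := by
    apply le_antisymm (key u hu1.le)
    have h2 := key u⁻¹ (by rw [map_inv₀, hu1, inv_one])
    rw [map_inv₀, map_inv₀] at h2
    have h3 : A.valuation (g u) ≠ 0 := by
      rw [Valuation.ne_zero_iff]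
      intro h0
      rw [map_eq_zero_iff g g.injective] at h0
      rw [h0, map_zero] at hu1
      exact zero_ne_one hu1
    exact (inv_le_one₀ (zero_lt_iff.mpr h3)).mp h2
  have h2 : A.valuation (g x) ^ e = A.valuation x ^ e := by
    have h3 : g u = (g x) ^ e / (p : Qbar) ^ f := by
      rw [hu, map_div₀, map_pow, map_zpow₀, map_natCast]
    rw [h3, map_div₀, map_pow, map_zpow₀, div_eq_one_iff_eq (zpow_ne_zero _ hvp)] at h1
    rw [h1, hef]
  exact (pow_left_inj₀ zero_le zero_le he.ne').mp h2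

variable (hp : p.Prime) (hA : A.LiesOverPrime p)

/-- the wild inertia group at level `K` -/
def wild (hp : p.Prime) (hA : A.LiesOverPrime p) (K : IntermediateField ℚ Qbar) : Subgroup GQ where
  carrier := {σ | σ ∈ A.inertiaSubgroupIn ℚ ∧ ∀ x ∈ K, x ≠ 0 →
    A.valuation (σ x - x) < A.valuation x}
  one_mem' := ⟨one_mem _, fun x _ hx => by
    rw [AlgEquiv.one_apply, sub_self, map_zero]
    exact zero_lt_iff.mpr ((Valuation.ne_zero_iff _).mpr hx)⟩
  mul_mem' := by
    rintro σ τ ⟨hσ, hσ'⟩ ⟨hτ, hτ'⟩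
    refine ⟨mul_mem hσ hτ, fun x hx hx0 => ?_⟩
    have e : (σ * τ) x - x = σ (τ x - x) + (σ x - x) := by
      rw [AlgEquiv.mul_apply, map_sub]; ring
    rw [e]
    refine lt_of_le_of_lt (A.valuation.map_add _ _) (max_lt ?_ (hσ' x hx hx0))
    rw [val_smul hp hA (inertia_le_decomp hσ)]
    exact hτ' x hx hx0
  inv_mem' := by
    rintro σ ⟨hσ, hσ'⟩
    refine ⟨inv_mem hσ, fun x hx hx0 => ?_⟩
    have h1 := val_smul hp hA (inertia_le_decomp hσ) (σ⁻¹ x - x)
    have e : σ (σ⁻¹ x - x) = -(σ x - x) := by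
      rw [map_sub, ← AlgEquiv.mul_apply, mul_inv_cancel, AlgEquiv.one_apply]; ring
    rw [← h1, e, Valuation.map_neg]
    exact hσ' x hx hx0

variable {hp hA} {K : IntermediateField ℚ Qbar}

theorem mem_wild {σ : GQ} : σ ∈ wild hp hA K ↔ σ ∈ A.inertiaSubgroupIn ℚ ∧ ∀ x ∈ K, x ≠ 0 →
    A.valuation (σ x - x) < A.valuation x := Iff.rfl

theorem conj_mem_wild (hK : ∀ g : GQ, ∀ x ∈ K, g x ∈ K) {g σ : GQ}
    (hg : g ∈ A.decompositionSubgroup ℚ) (hσ : σ ∈ wild hp hA K) :
    g * σ * g⁻¹ ∈ wild hp hA K := by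
  refine ⟨conj_mem_inertia' hg hσ.1, fun x hx hx0 => ?_⟩
  have e : (g * σ * g⁻¹) x - x = g (σ (g⁻¹ x) - g⁻¹ x) := by
    rw [map_sub, AlgEquiv.mul_apply, AlgEquiv.mul_apply, ← AlgEquiv.mul_apply g g⁻¹,
      mul_inv_cancel, AlgEquiv.one_apply]
  have h1 := hσ.2 (g⁻¹ x) (hK _ x hx) (by rwa [Ne, map_eq_zero_iff _ (g⁻¹ : GQ).injective])
  rw [e, val_smul hp hA hg]
  refine lt_of_lt_of_le h1 (le_of_eq ?_)
  exact val_smul hp hA (inv_mem hg) x

/-- commutators of inertia elements are wild -/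
theorem comm_mem_wild (hK : ∀ g : GQ, ∀ x ∈ K, g x ∈ K) {σ τ : GQ}
    (hσ : σ ∈ A.inertiaSubgroupIn ℚ) (hτ : τ ∈ A.inertiaSubgroupIn ℚ) :
    σ * τ * σ⁻¹ * τ⁻¹ ∈ wild hp hA K := by
  refine ⟨mul_mem (mul_mem (mul_mem hσ hτ) (inv_mem hσ)) (inv_mem hτ), fun y hy hy0 => ?_⟩
  set x : Qbar := (σ⁻¹ * τ⁻¹) y with hx
  have hyx : y = (τ * σ) x := by
    rw [hx, ← AlgEquiv.mul_apply]
    have : τ * σ * (σ⁻¹ * τ⁻¹) = 1 := by group
    rw [this, AlgEquiv.one_apply]
  have hx0 : x ≠ 0 := by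
    intro h
    rw [h, map_zero] at hyx
    exact hy0 hyx
  have hσd := inertia_le_decomp hσ
  have hτd := inertia_le_decomp hτ
  have hvx : A.valuation y = A.valuation x := by
    rw [hyx]; exact val_smul hp hA (mul_mem hτd hσd) x
  have hvx0 : A.valuation x ≠ 0 := (Valuation.ne_zero_iff _).mpr hx0
  have e : (σ * τ * σ⁻¹ * τ⁻¹) y - y =
      x * ((σ (τ x / x) - τ x / x) * (σ x / x) - (τ (σ x / x) - σ x / x) * (τ x / x)) := by
    have h1 : (σ * τ * σ⁻¹ * τ⁻¹) y = σ (τ x) := by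
      rw [hx, ← AlgEquiv.mul_apply, ← AlgEquiv.mul_apply]
      congr 1
    have h2 : σ (τ x) = σ (τ x / x) * σ x := by
      rw [← map_mul, div_mul_cancel₀ _ hx0]
    have h3 : τ (σ x) = τ (σ x / x) * τ x := by
      rw [← map_mul, div_mul_cancel₀ _ hx0]
    rw [h1, hyx, AlgEquiv.mul_apply, h2, h3]
    field_simp
    ring
  have hu : ∀ g : GQ, g ∈ A.decompositionSubgroup ℚ → A.valuation (g x / x) = 1 := by
    intro g hg
    rw [map_div₀, val_smul hp hA hg, div_self hvx0]
  have hd : ∀ g h : GQ, g ∈ A.inertiaSubgroupIn ℚ → h ∈ A.decompositionSubgroup ℚ →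
      A.valuation (g (h x / x) - h x / x) < 1 := fun g h hg hh =>
    valuation_sub_lt_of_mem_inertia hg ((A.valuation_le_one_iff _).mp (hu h hh).le)
  rw [e, hvx, map_mul]
  refine mul_lt_of_lt_one_right (zero_lt_iff.mpr hvx0) ?_
  refine lt_of_le_of_lt (A.valuation.map_sub _ _) (max_lt ?_ ?_)
  · rw [map_mul, hu σ hσd, mul_one]; exact hd σ τ hσ hτd
  · rw [map_mul, hu τ hτd, mul_one]; exact hd τ σ hτ hσd

/-- the tame quotient has no `p`-torsion -/
theorem mem_wild_of_pow {σ : GQ} (hσ : σ ∈ A.inertiaSubgroupIn ℚ)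
    (h : σ ^ p ∈ wild hp hA K) : σ ∈ wild hp hA K := by
  refine ⟨hσ, fun x hx hx0 => ?_⟩
  have hσd := inertia_le_decomp hσ
  have hvx0 : A.valuation x ≠ 0 := (Valuation.ne_zero_iff _).mpr hx0
  set a : Qbar := σ x / x with ha
  have hva : A.valuation a = 1 := by
    rw [ha, map_div₀, val_smul hp hA hσd, div_self hvx0]
  have haA : a ∈ A := (A.valuation_le_one_iff _).mp hva.le
  have key : ∀ n : ℕ, A.valuation ((σ ^ n) x / x - a ^ n) < 1 := by
    intro n
    induction n with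
    | zero => simp [hx0]
    | succ n ih =>
      set u : Qbar := (σ ^ n) x / x with hu
      have hvu : A.valuation u = 1 := by
        rw [hu, map_div₀, val_smul hp hA (pow_mem hσd n), div_self hvx0]
      have e : (σ ^ (n + 1)) x / x - a ^ (n + 1) = (σ u - u) * a + (u - a ^ n) * a := by
        have h1 : (σ ^ (n + 1)) x = σ u * σ x := by
          rw [pow_succ', AlgEquiv.mul_apply, hu, ← map_mul, div_mul_cancel₀ _ hx0]
        rw [h1, mul_div_assoc, ← ha]
        ring
      rw [e]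
      refine lt_of_le_of_lt (A.valuation.map_add _ _) (max_lt ?_ ?_)
      · rw [map_mul, hva, mul_one]
        exact valuation_sub_lt_of_mem_inertia hσ ((A.valuation_le_one_iff _).mp hvu.le)
      · rw [map_mul, hva, mul_one]; exact ih
  have h1 := key p
  have h2 : A.valuation ((σ ^ p) x / x - 1) < 1 := by
    have e : (σ ^ p) x / x - 1 = ((σ ^ p) x - x) / x := by rw [sub_div, div_self hx0]
    rw [e, map_div₀]
    exact (div_lt_one₀ (zero_lt_iff.mpr hvx0)).mpr (h.2 x hx hx0)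
  have h3 : A.valuation (a ^ p - 1) < 1 := by
    have e : a ^ p - 1 = ((σ ^ p) x / x - 1) - ((σ ^ p) x / x - a ^ p) := by ring
    rw [e]
    exact lt_of_le_of_lt (A.valuation.map_sub _ _) (max_lt h2 h1)
  haveI : Fact p.Prime := ⟨hp⟩
  haveI := FrobDens.charP_residueField A hp hA
  have h4 : A.valuation (a - 1) < 1 := by
    have h5 := (FrobDens.residue_eq_iff A ((⟨a, haA⟩ : A) ^ p) 1).mpr h3
    rw [map_pow, map_one] at h5
    have h6 : IsLocalRing.residue A ⟨a, haA⟩ = 1 := by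
      have h7 : (IsLocalRing.residue A ⟨a, haA⟩ - 1) ^ p = 0 := by
        rw [sub_pow_expChar, h5, one_pow, sub_self]
      exact sub_eq_zero.mp (pow_eq_zero_iff hp.ne_zero |>.mp h7)
    exact (FrobDens.residue_eq_iff A (⟨a, haA⟩ : A) 1).mp (by rw [h6, map_one])
  have e : σ x - x = x * (a - 1) := by
    rw [ha, mul_sub, mul_one, mul_div_cancel₀ _ hx0]
  rw [e, map_mul]
  exact mul_lt_of_lt_one_right (zero_lt_iff.mpr hvx0) h4

/-- wild inertia elements have no prime-to-`p` torsion -/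
theorem fix_of_wild {σ : GQ} (hK : ∀ g : GQ, ∀ x ∈ K, g x ∈ K) (hσ : σ ∈ wild hp hA K) {n : ℕ}
    (hn : ¬ p ∣ n) (h : ∀ x ∈ K, (σ ^ n) x = x) : ∀ x ∈ K, σ x = x := by
  intro x hx
  have hn0 : n ≠ 0 := fun h0 => hn (h0 ▸ dvd_zero _)
  have hnQ : (n : Qbar) ≠ 0 := by exact_mod_cast hn0
  set s : Qbar := ∑ i ∈ Finset.range n, (σ ^ i) x with hs
  have hsσ : ∀ j : ℕ, (σ ^ j) s = s := by
    have h1 : σ s = s := by
      rw [hs, map_sum]
      have e : ∀ i ∈ Finset.range n, σ ((σ ^ i) x) = (σ ^ (i + 1)) x := by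
        intro i _
        rw [pow_succ', AlgEquiv.mul_apply]
      rw [Finset.sum_congr rfl e]
      have h2 := Finset.sum_range_succ (fun i => (σ ^ i) x) n
      have h3 := Finset.sum_range_succ' (fun i => (σ ^ i) x) n
      rw [h2] at h3
      simp only [pow_zero, AlgEquiv.one_apply] at h3
      rw [h x hx] at h3
      exact (add_right_cancel h3).symm
    intro j
    induction j with
    | zero => rfl
    | succ j ih => rw [pow_succ', AlgEquiv.mul_apply, ih, h1]
  have hsK : s ∈ K := sum_mem fun i _ => hK _ x hx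
  set y : Qbar := (n : Qbar) * x - s with hy
  have hyK : y ∈ K := sub_mem (mul_mem (natCast_mem K n) hx) hsK
  have hysum : ∑ j ∈ Finset.range n, (σ ^ j) y = 0 := by
    have e : ∀ j ∈ Finset.range n, (σ ^ j) y = (n : Qbar) * (σ ^ j) x - s := by
      intro j _
      rw [hy, map_sub, map_mul, map_natCast, hsσ]
    rw [Finset.sum_congr rfl e, Finset.sum_sub_distrib, ← Finset.mul_sum, ← hs,
      Finset.sum_const, Finset.card_range, nsmul_eq_mul, sub_self]
  have hy0 : y = 0 := by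
    by_contra hne
    have h1 : ∑ j ∈ Finset.range n, ((σ ^ j) y - y) = -((n : Qbar) * y) := by
      rw [Finset.sum_sub_distrib, hysum, Finset.sum_const, Finset.card_range, nsmul_eq_mul,
        zero_sub]
    have hvn : A.valuation (n : Qbar) = 1 := by
      have := ECRed.val_int_of_coprime A hp hA (n := (n : ℤ)) (by exact_mod_cast hn)
      exact_mod_cast this
    have h2 : A.valuation (∑ j ∈ Finset.range n, ((σ ^ j) y - y)) = A.valuation y := by
      rw [h1, Valuation.map_neg, map_mul, hvn, one_mul]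
    have h3 : A.valuation (∑ j ∈ Finset.range n, ((σ ^ j) y - y)) < A.valuation y := by
      refine Valuation.map_sum_lt _ ((Valuation.ne_zero_iff _).mpr hne) fun j _ => ?_
      exact (pow_mem hσ j).2 y hyK hne
    exact h3.ne h2
  have h1 : (n : Qbar) * x = s := sub_eq_zero.mp hy0
  have h2 : σ ((n : Qbar) * x) = (n : Qbar) * x := by
    rw [h1]
    simpa using hsσ 1
  rw [map_mul, map_natCast] at h2
  exact mul_left_cancel₀ hnQ h2

end Fermat.Agent.TWL4
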